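import Fermat.Agent.S55.Local.Spec

/-!
# S55, layer L, piece LF7 : `RamificationStatement`   (helper724)

`theorem ramification724 : Fermat.Agent.S55.Local.RamificationStatement`.

The proof needs NO structure theory of the ring of integers (no LF0): the two uniformizer
hypotheses `IsUnif` already contain all the valuation theory.  With `n = [L : K]`:

* `ϖK = u' * ϖL ^ e` in `Lˣ` with `u' ∈ U_L`, `e : ℤ`        (`IsUnif ϖL`),
* `N(ϖL) = u * ϖK ^ m` in `Kˣ` with `u ∈ U_K`, `m : ℤ`        (`IsUnif ϖK`),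
* `ϖK ^ n = N(ϖK) = N(u') * N(ϖL) ^ e = N(u') * u ^ e * ϖK ^ (m * e)`, and `N(u') ∈ U_K`
  (norms of integral elements are integral), hence `ϖK ^ (n - m * e) ∈ U_K`, hence `n = m * e`
  because `ϖK` is an integral non-unit,
* `e ≥ 1` because otherwise `ϖK` would be a unit of the ring of integers of `L`, hence of `K`
  (integrality over the base is intrinsic).

By-products (valid for ANY base `A → F`, no DVR hypotheses):
`isInt_algebraMap_iff724` (integrality is intrinsic), `isInt_norm724`,
`unitsIncl_mem_intUnits_iff724` (= LF3), `normUnits_mem_intUnits724` (= LF8),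
`normUnits_unitsIncl724`, `zpow_mem_intUnits724`.
-/

set_option autoImplicit false

namespace Fermat.Agent.S55.Local.H724

open Fermat.Agent.S55.Local

section Basic

variable (A F : Type) [CommRing A] [Field F] [Algebra A F]
variable (K : Type) [Field K] [Algebra F K]
variable (L : Type) [Field L] [Algebra F L] [Algebra K L] [IsScalarTower F K L]

/-- `toL A F L` factors through `K`. -/
lemma toL_eq_comp724 : toL A F L = (algebraMap K L).comp (toL A F K) := by
  ext a
  simp [toL, IsScalarTower.algebraMap_apply F K L]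

/-- Integrality over the base is intrinsic: `y : K` is integral iff its image in `L` is. -/
lemma isInt_algebraMap_iff724 (y : K) :
    IsInt A F L (algebraMap K L y) ↔ IsInt A F K y := by
  unfold IsInt
  rw [toL_eq_comp724 A F K L]
  constructor
  · rintro ⟨p, hp, h⟩
    refine ⟨p, hp, ?_⟩
    rw [← Polynomial.hom_eval₂] at h
    exact (map_eq_zero_iff _ (algebraMap K L).injective).mp h
  · rintro ⟨p, hp, h⟩
    refine ⟨p, hp, ?_⟩
    rw [← Polynomial.hom_eval₂, h, map_zero]

/-- Powers of integral elements are integral. -/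
lemma isInt_pow724 {x : L} (hx : IsInt A F L x) (n : ℕ) : IsInt A F L (x ^ n) := by
  induction n with
  | zero => simpa using isInt_one A F L
  | succ k ih => rw [pow_succ]; exact ih.mul hx

/-- The norm of an integral element is integral. -/
lemma isInt_norm724 {x : L} (hx : IsInt A F L x) :
    IsInt A F K (Algebra.norm K x) := by
  let _ : Algebra A K := (toL A F K).toAlgebra
  let _ : Algebra A L := (toL A F L).toAlgebra
  have : IsScalarTower A K L := IsScalarTower.of_algebraMap_eq (fun a => by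
    show toL A F L a = algebraMap K L (toL A F K a)
    rw [toL_eq_comp724 A F K L]; rfl)
  exact Algebra.isIntegral_norm K (R := A) hx

/-- (= LF3, without any hypothesis on the base) `U_L ∩ Kˣ = U_K`. -/
lemma unitsIncl_mem_intUnits_iff724 (y : Kˣ) :
    unitsIncl L K y ∈ intUnits A F L ↔ y ∈ intUnits A F K := by
  rw [mem_intUnits, mem_intUnits]
  have h1 : ((unitsIncl L K y : Lˣ) : L) = algebraMap K L (y : K) := rfl
  have h2 : (((unitsIncl L K y)⁻¹ : Lˣ) : L) = algebraMap K L ((y⁻¹ : Kˣ) : K) := by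
    rw [← map_inv]; rfl
  rw [h1, h2, isInt_algebraMap_iff724, isInt_algebraMap_iff724]

/-- (= LF8, without any hypothesis on the base) norms of integral units are integral units. -/
lemma normUnits_mem_intUnits724 {x : Lˣ} (hx : x ∈ intUnits A F L) :
    normUnits L K x ∈ intUnits A F K := by
  rw [mem_intUnits] at hx ⊢
  refine ⟨isInt_norm724 A F K L hx.1, ?_⟩
  have h : (((normUnits L K x)⁻¹ : Kˣ) : K) = Algebra.norm K (((x⁻¹ : Lˣ)) : L) := by
    rw [← map_inv]; rfl
  rw [h]
  exact isInt_norm724 A F K L hx.2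

/-- The norm of an element of `K` is its `[L : K]`-th power. -/
lemma normUnits_unitsIncl724 (y : Kˣ) :
    normUnits L K (unitsIncl L K y) = y ^ Module.finrank K L := by
  ext
  simp [Algebra.norm_algebraMap]

end Basic

section Unif

variable (A F : Type) [CommRing A] [Field F] [Algebra A F]
variable (K : Type) [Field K] [Algebra F K]

/-- A positive power of an integral non-unit is not a unit of the ring of integers. -/
lemma pow_not_mem_intUnits724 {ϖ : Kˣ} (h1 : IsInt A F K (ϖ : K)) (h2 : ϖ ∉ intUnits A F K)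
    {n : ℕ} (hn : 0 < n) : ϖ ^ n ∉ intUnits A F K := by
  intro h
  apply h2
  rw [mem_intUnits]
  refine ⟨h1, ?_⟩
  obtain ⟨k, rfl⟩ : ∃ k, n = k + 1 := ⟨n - 1, by omega⟩
  have e : (ϖ⁻¹ : Kˣ) = ϖ ^ k * (ϖ ^ (k + 1))⁻¹ := by
    rw [pow_succ, mul_inv_rev, mul_comm (ϖ⁻¹), ← mul_assoc, mul_inv_cancel, one_mul]
  rw [e, Units.val_mul, Units.val_pow_eq_pow_val]
  exact (isInt_pow724 A F K h1 k).mul ((mem_intUnits A F K).mp h).2

/-- If an integral power of an integral non-unit is a unit of the ring of integers, the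
exponent is zero. -/
lemma zpow_mem_intUnits724 {ϖ : Kˣ} (h1 : IsInt A F K (ϖ : K)) (h2 : ϖ ∉ intUnits A F K)
    {j : ℤ} (hj : ϖ ^ j ∈ intUnits A F K) : j = 0 := by
  by_contra hne
  rcases lt_or_gt_of_ne hne with hlt | hgt
  · have h := (intUnits A F K).inv_mem hj
    rw [← zpow_neg] at h
    obtain ⟨n, hn⟩ : ∃ n : ℕ, -j = (n : ℤ) := ⟨(-j).toNat, by omega⟩
    rw [hn, zpow_natCast] at h
    exact pow_not_mem_intUnits724 A F K h1 h2 (by omega) h
  · obtain ⟨n, hn⟩ : ∃ n : ℕ, j = (n : ℤ) := ⟨j.toNat, by omega⟩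
    rw [hn, zpow_natCast] at hj
    exact pow_not_mem_intUnits724 A F K h1 h2 (by omega) hj

end Unif

/-- **LF7** (`RamificationStatement`): for uniformizers `ϖK`, `ϖL` of local fields `K ⊆ L` there
are `e f : ℕ` with `e * f = [L : K]`, `ϖK ~ ϖL ^ e` and `N_{L/K}(ϖL) ~ ϖK ^ f`.
The proof uses only the two `IsUnif` hypotheses (no hypothesis on the base is needed). -/
theorem ramification_core724 (A F : Type) [CommRing A] [Field F] [Algebra A F]
    (K : Type) [Field K] [Algebra F K]
    (L : Type) [Field L] [Algebra F L] [Algebra K L] [IsScalarTower F K L]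
    [FiniteDimensional K L] (ϖK : Kˣ) (ϖL : Lˣ)
    (hK : IsUnif A F K ϖK) (hL : IsUnif A F L ϖL) :
    ∃ e f : ℕ, e * f = Module.finrank K L ∧
      unitsIncl L K ϖK * ϖL ^ (-(e : ℤ)) ∈ intUnits A F L ∧
      normUnits L K ϖL * ϖK ^ (-(f : ℤ)) ∈ intUnits A F K := by
  obtain ⟨hK1, hK2, hK3⟩ := hK
  obtain ⟨hL1, hL2, hL3⟩ := hL
  obtain ⟨e, he⟩ := hL3 (unitsIncl L K ϖK)
  obtain ⟨m, hm⟩ := hK3 (normUnits L K ϖL)
  have hnpos : 0 < Module.finrank K L := Module.finrank_pos
  -- the norm relation
  have hN := normUnits_mem_intUnits724 A F K L he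
  rw [map_mul, map_zpow, normUnits_unitsIncl724] at hN
  have hme := (intUnits A F K).zpow_mem hm e
  have hprod := (intUnits A F K).mul_mem hN hme
  have hcalc : ϖK ^ Module.finrank K L * normUnits L K ϖL ^ (-e) *
      (normUnits L K ϖL * ϖK ^ (-m)) ^ e = ϖK ^ ((Module.finrank K L : ℤ) - m * e) := by
    rw [mul_zpow, ← zpow_mul, sub_eq_add_neg, zpow_add, zpow_natCast, zpow_neg (normUnits L K ϖL),
      neg_mul]
    rw [mul_assoc, ← mul_assoc ((normUnits L K ϖL ^ e)⁻¹), inv_mul_cancel, one_mul]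
  rw [hcalc] at hprod
  have hrel : (Module.finrank K L : ℤ) = m * e := by
    have := zpow_mem_intUnits724 A F K hK1 hK2 hprod
    omega
  -- `e ≥ 1`
  have hepos : 0 < e := by
    by_contra hle
    have hle : e ≤ 0 := not_lt.mp hle
    apply hK2
    rw [← unitsIncl_mem_intUnits_iff724 A F K L, mem_intUnits]
    refine ⟨(isInt_algebraMap_iff724 A F K L _).mpr hK1, ?_⟩
    obtain ⟨k, hk⟩ : ∃ k : ℕ, -e = (k : ℤ) := ⟨(-e).toNat, by omega⟩
    have e1 : (unitsIncl L K ϖK)⁻¹ = (unitsIncl L K ϖK * ϖL ^ (-e))⁻¹ * ϖL ^ k := by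
      rw [hk, zpow_natCast, mul_inv, mul_assoc, inv_mul_cancel, mul_one]
    rw [e1, Units.val_mul, Units.val_pow_eq_pow_val]
    exact ((mem_intUnits A F L).mp he).2.mul (isInt_pow724 A F L hL1 k)
  have hmpos : 0 < m := by
    by_contra hle
    have hle : m ≤ 0 := not_lt.mp hle
    have : m * e ≤ 0 := mul_nonpos_of_nonpos_of_nonneg hle hepos.le
    omega
  refine ⟨e.toNat, m.toNat, ?_, ?_, ?_⟩
  · have : ((e.toNat * m.toNat : ℕ) : ℤ) = (Module.finrank K L : ℤ) := by
      rw [Nat.cast_mul, Int.toNat_of_nonneg hepos.le, Int.toNat_of_nonneg hmpos.le, hrel, mul_comm]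
    exact_mod_cast this
  · rw [Int.toNat_of_nonneg hepos.le]; exact he
  · rw [Int.toNat_of_nonneg hmpos.le]; exact hm

/-- **LF7** in the exact form of the frozen interface. -/
theorem ramification724 : RamificationStatement := by
  intro A F _ _ _ _ _ _ _ _ _ K _ _ _ L _ _ _ _ _ ϖK ϖL hK hL
  exact ramification_core724 A F K L ϖK ϖL hK hL

/-- **LF3** (`IntUnitsComapStatement`) in the exact form of the frozen interface (by-product). -/
theorem intUnitsComap724 : IntUnitsComapStatement := by
  intro A F _ _ _ _ _ _ _ _ _ K _ _ _ L _ _ _ _ _ y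
  exact unitsIncl_mem_intUnits_iff724 A F K L y

/-- **LF8** (`NormUnitsIntStatement`) in the exact form of the frozen interface (by-product). -/
theorem normUnitsInt724 : NormUnitsIntStatement := by
  intro A F _ _ _ _ _ _ _ _ _ K _ _ _ L _ _ _ _ _ x hx
  exact normUnits_mem_intUnits724 A F K L hx

end Fermat.Agent.S55.Local.H724
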